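/-
Programme T1B (row 38 via S44), cell TORIC50, brick NORM-MODEL part B, HUB ADAPTER (helper49), file 1:
**`Mα`, `Mβ` at the place `padicPlace p`, `q := p`, Hauptmodul `tq · 4 8`** — the exact data of helper9's concrete hub
`Hub9` (`B0S H = B0 (padicPlace p) p H.htq`, `B0T H = B0M (padicPlace p) H.htq`, … by `rfl`), stated on the
`ES.N34.ModelDefs9` names so that this file does not depend on `Hub9`.

For `p` an odd prime, `4 ∣ M'`, `p ∤ M'`, `K` a number field containing `ζ_{M'}` and `ht : tq K 4 8 ∈ FK M' K`: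

* `isDVR_W p K` : `A ∩ K` is a DVR (`A := padicPlace p`);
* `normDataP hp2 hpM h4 hζ ht : NormData (AK A K) (alpha K M' p) (beta K M' p) (tM ht)` (helper99's
  `ModelAt.normData_four_at`);
* `MalphaP hp2 hpM h4 hζ ht`, `MbetaP … : ChartMor ↥(AK A K) ↥(B0 A p ht) ↥(B1 A p ht) ↥(B0 A p ht ⊔ B1 A p ht)
    ↥(B0M A ht) ↥(B1M A ht) ↥(B0M A ht ⊔ B1M A ht)` (overlap algebra structures `Coh60.algebra0/1`), with the
  coercion lemmas `MalphaP_α0_coe` … (`rfl`);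
* `SalphaP … D D' hρ0 hρ1 hρ0' hρ1'`, `SbetaP … : Toric11.NormSys D D'` for ANY Čech data `D` on the nodal charts and
  `D'` on the smooth charts whose restriction maps are the inclusions (`Hub9.DS H`, `Hub9.DT H`: `rfl`), with
  `SalphaP_trMap`, `SalphaP_N01`, `SalphaP_jacMat` (`rfl`).
-/
import Mathlib
import Fermat.Agent.T1B.NormModel99.ModelAt
import Fermat.Agent.T1B.NormModel99.ChartMorInst
import Fermat.Agent.T1.LocModel46.NumField
import Fermat.Agent.T1.Assembly41.FastInst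

set_option autoImplicit false
set_option synthInstance.maxHeartbeats 400000
set_option maxHeartbeats 1000000
set_option linter.unusedSectionVars false
set_option linter.style.haveILetI false

noncomputable section

open HahnSeries ModularCurve IntermediateField

namespace Fermat.Agent.T1B.NormModel49

open Fermat.Agent.RED.Interface4 Fermat.Agent.RED.BASE.EtaQuot12 Fermat.Agent.X0
  Fermat.Agent.ES.N34.ModelDefs9 Fermat.Agent.T1.Coh60 Fermat.Agent.T1.CechFormal70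
  Fermat.Agent.T1B.Toric11 Fermat.Agent.T1B.Norm84 Fermat.Agent.T1B.NormModel99
open scoped Fermat.Agent.T1.Assembly41.FastInst

attribute [local instance] algebra0 algebra1 isScalarTower0 isScalarTower1

variable (p : ℕ) [Fact p.Prime] [NeZero p] {M' : ℕ} [NeZero M'] (K : IntermediateField ℚ Qbar)
  [FiniteDimensional ℚ K]

/-- `A ∩ K` is a DVR (`A := padicPlace p`). -/
theorem isDVR_W : IsDiscreteValuationRing ↥(AK (padicPlace p) K) :=
  Fermat.Agent.T1.LocModel46.isDVR_AK p K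

variable {p K}

/-- **NORM-MODEL part B at `padicPlace p`** (helper99's `normData_four_at`). -/
theorem normDataP (hp2 : p ≠ 2) (hpM : ¬ p ∣ M') (h4 : 4 ∣ M') (hζ : zetaK M' ∈ K)
    (ht : tq (↥K) 4 8 ∈ FK M' K) :
    NormData (AK (padicPlace p) K) (alpha K M' p) (beta K M' p) (tM ht) :=
  normData_four_at (Fact.out : p.Prime) hp2 hpM h4 (Fermat.Agent.T1.LocModel46.liesOverPrime p) hζ ht

variable (hp2 : p ≠ 2) (hpM : ¬ p ∣ M') (h4 : 4 ∣ M') (hζ : zetaK M' ∈ K)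
  (ht : tq (↥K) 4 8 ∈ FK M' K)

/-- **`Mα` on the hub data**: `alpha : (B0M, B1M, B0M ⊔ B1M) → (B0, B1, B0 ⊔ B1)` at `padicPlace p`. -/
def MalphaP :
    ChartMor ↥(AK (padicPlace p) K) ↥(B0 (padicPlace p) p ht) ↥(B1 (padicPlace p) p ht)
      ↥(B0 (padicPlace p) p ht ⊔ B1 (padicPlace p) p ht)
      ↥(B0M (padicPlace p) ht) ↥(B1M (padicPlace p) ht)
      ↥(B0M (padicPlace p) ht ⊔ B1M (padicPlace p) ht) :=
  haveI := isDVR_W p K
  Malpha (normDataP hp2 hpM h4 hζ ht)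

/-- **`Mβ` on the hub data**: `beta : (B0M, B1M, B0M ⊔ B1M) → (B0, B1, B0 ⊔ B1)` at `padicPlace p`. -/
def MbetaP :
    ChartMor ↥(AK (padicPlace p) K) ↥(B0 (padicPlace p) p ht) ↥(B1 (padicPlace p) p ht)
      ↥(B0 (padicPlace p) p ht ⊔ B1 (padicPlace p) p ht)
      ↥(B0M (padicPlace p) ht) ↥(B1M (padicPlace p) ht)
      ↥(B0M (padicPlace p) ht ⊔ B1M (padicPlace p) ht) :=
  haveI := isDVR_W p K
  Mbeta (normDataP hp2 hpM h4 hζ ht)

/-- `MalphaP` is helper99's `Malpha` (for ANY instance of the DVR hypothesis). -/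
theorem MalphaP_eq [IsDiscreteValuationRing ↥(AK (padicPlace p) K)] :
    MalphaP hp2 hpM h4 hζ ht = Malpha (normDataP hp2 hpM h4 hζ ht) := rfl

theorem MbetaP_eq [IsDiscreteValuationRing ↥(AK (padicPlace p) K)] :
    MbetaP hp2 hpM h4 hζ ht = Mbeta (normDataP hp2 hpM h4 hζ ht) := rfl

section Coe

@[simp] theorem MalphaP_α0_coe (x : ↥(B0M (padicPlace p) ht)) :
    (((MalphaP hp2 hpM h4 hζ ht).α0 x : ↥(B0 (padicPlace p) p ht)) : ↥(FK (M' * p) K)) =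
      alpha K M' p (x : ↥(FK M' K)) := rfl

@[simp] theorem MalphaP_α1_coe (x : ↥(B1M (padicPlace p) ht)) :
    (((MalphaP hp2 hpM h4 hζ ht).α1 x : ↥(B1 (padicPlace p) p ht)) : ↥(FK (M' * p) K)) =
      alpha K M' p (x : ↥(FK M' K)) := rfl

@[simp] theorem MalphaP_α01_coe (x : ↥(B0M (padicPlace p) ht ⊔ B1M (padicPlace p) ht)) :
    (((MalphaP hp2 hpM h4 hζ ht).α01 x : ↥(B0 (padicPlace p) p ht ⊔ B1 (padicPlace p) p ht)) :
      ↥(FK (M' * p) K)) = alpha K M' p (x : ↥(FK M' K)) := rfl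

@[simp] theorem MalphaP_t0_coe :
    (((MalphaP hp2 hpM h4 hζ ht).t0 : ↥(B0M (padicPlace p) ht)) : ↥(FK M' K)) = tM ht := rfl

@[simp] theorem MalphaP_t1_coe :
    (((MalphaP hp2 hpM h4 hζ ht).t1 : ↥(B1M (padicPlace p) ht)) : ↥(FK M' K)) = (tM ht)⁻¹ := rfl

/-- the image of the coordinate `t0` under `Mα` is the nodal coordinate `tN`. -/
theorem MalphaP_α0_t0_coe :
    (((MalphaP hp2 hpM h4 hζ ht).α0 (MalphaP hp2 hpM h4 hζ ht).t0 : ↥(B0 (padicPlace p) p ht)) :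
      ↥(FK (M' * p) K)) = tN p ht := rfl

@[simp] theorem MbetaP_α0_coe (x : ↥(B0M (padicPlace p) ht)) :
    (((MbetaP hp2 hpM h4 hζ ht).α0 x : ↥(B0 (padicPlace p) p ht)) : ↥(FK (M' * p) K)) =
      beta K M' p (x : ↥(FK M' K)) := rfl

@[simp] theorem MbetaP_α1_coe (x : ↥(B1M (padicPlace p) ht)) :
    (((MbetaP hp2 hpM h4 hζ ht).α1 x : ↥(B1 (padicPlace p) p ht)) : ↥(FK (M' * p) K)) =
      beta K M' p (x : ↥(FK M' K)) := rfl

@[simp] theorem MbetaP_α01_coe (x : ↥(B0M (padicPlace p) ht ⊔ B1M (padicPlace p) ht)) :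
    (((MbetaP hp2 hpM h4 hζ ht).α01 x : ↥(B0 (padicPlace p) p ht ⊔ B1 (padicPlace p) p ht)) :
      ↥(FK (M' * p) K)) = beta K M' p (x : ↥(FK M' K)) := rfl

@[simp] theorem MbetaP_t0_coe :
    (((MbetaP hp2 hpM h4 hζ ht).t0 : ↥(B0M (padicPlace p) ht)) : ↥(FK M' K)) = tM ht := rfl

@[simp] theorem MbetaP_t1_coe :
    (((MbetaP hp2 hpM h4 hζ ht).t1 : ↥(B1M (padicPlace p) ht)) : ↥(FK M' K)) = (tM ht)⁻¹ := rfl

/-- the image of the coordinate `t0` under `Mβ` is `yN = t(𝐪^p)`. -/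
theorem MbetaP_α0_t0_coe :
    (((MbetaP hp2 hpM h4 hζ ht).α0 (MbetaP hp2 hpM h4 hζ ht).t0 : ↥(B0 (padicPlace p) p ht)) :
      ↥(FK (M' * p) K)) = yN p ht := rfl

end Coe

/-! ### The two Čech norm systems -/

section NormSys

variable {g g' : ℕ}
  (D : CechData ↥(AK (padicPlace p) K) ↥(B0 (padicPlace p) p ht) ↥(B1 (padicPlace p) p ht)
    ↥(B0 (padicPlace p) p ht ⊔ B1 (padicPlace p) p ht) g)
  (D' : CechData ↥(AK (padicPlace p) K) ↥(B0M (padicPlace p) ht) ↥(B1M (padicPlace p) ht)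
    ↥(B0M (padicPlace p) ht ⊔ B1M (padicPlace p) ht) g')
  (hρ0 : ∀ x, D.ρ0 x = algebraMap ↥(B0 (padicPlace p) p ht)
    ↥(B0 (padicPlace p) p ht ⊔ B1 (padicPlace p) p ht) x)
  (hρ1 : ∀ x, D.ρ1 x = algebraMap ↥(B1 (padicPlace p) p ht)
    ↥(B0 (padicPlace p) p ht ⊔ B1 (padicPlace p) p ht) x)
  (hρ0' : ∀ x, D'.ρ0 x = algebraMap ↥(B0M (padicPlace p) ht)
    ↥(B0M (padicPlace p) ht ⊔ B1M (padicPlace p) ht) x)
  (hρ1' : ∀ x, D'.ρ1 x = algebraMap ↥(B1M (padicPlace p) ht)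
    ↥(B0M (padicPlace p) ht ⊔ B1M (padicPlace p) ht) x)

/-- **`Sα`**: the Čech norm system of `Mα`. -/
def SalphaP : NormSys D D' :=
  (MalphaP hp2 hpM h4 hζ ht).normSys D D' hρ0 hρ1 hρ0' hρ1'

/-- **`Sβ`**: the Čech norm system of `Mβ`. -/
def SbetaP : NormSys D D' :=
  (MbetaP hp2 hpM h4 hζ ht).normSys D D' hρ0 hρ1 hρ0' hρ1'

theorem SalphaP_eq :
    SalphaP hp2 hpM h4 hζ ht D D' hρ0 hρ1 hρ0' hρ1' =
      (MalphaP hp2 hpM h4 hζ ht).normSys D D' hρ0 hρ1 hρ0' hρ1' := rfl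

theorem SbetaP_eq :
    SbetaP hp2 hpM h4 hζ ht D D' hρ0 hρ1 hρ0' hρ1' =
      (MbetaP hp2 hpM h4 hζ ht).normSys D D' hρ0 hρ1 hρ0' hρ1' := rfl

end NormSys

end Fermat.Agent.T1B.NormModel49
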