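/-
Programme T1B (row 38 via S44), cell TORIC50, HUB ADAPTER (helper49), file 0 (generic, light imports):
**the linear maps `α`, `β` of `Toric50.Master` / `Toric98.ToricBase.towerInput_of_fibre` from a `ChartMor`.**

For `M : Toric11.ChartMor W B0 B1 B01 B0' B1' B01'` and Čech data `D` (unprimed), `D'` (primed) whose restriction
maps are the structure maps (`hρ0 … hρ1'`):

* `linOf M : B01' →ₗ[W] B01 := M.α01.toLinearMap` (`linOf_apply : linOf M x = M.α01 x`);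
* `linOf_rho0 M D D' hρ0 hρ0' : ∀ a : B0', ∃ a0 : B0, linOf M (D'.ρ0 a) = D.ρ0 a0` (witness `M.α0 a`), `linOf_rho1`
  — the hypotheses `hα0 hα1` (resp. `hβ0 hβ1`) of `towerInput_of_fibre`;
* `linOf_rho0_eq`, `linOf_rho1_eq` : the equalities with the explicit witnesses.
-/
import Mathlib
import Fermat.Agent.T1B.Toric11.NormProj

set_option autoImplicit false
set_option linter.unusedSectionVars false

namespace Fermat.Agent.T1B.NormModel49

open Fermat.Agent.T1.CechFormal70 Fermat.Agent.T1B.Toric11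

universe u

variable {W B0 B1 B01 B0' B1' B01' : Type u} [CommRing W]
  [CommRing B0] [CommRing B1] [CommRing B01] [Algebra W B0] [Algebra W B1] [Algebra W B01]
  [CommRing B0'] [CommRing B1'] [CommRing B01'] [Algebra W B0'] [Algebra W B1'] [Algebra W B01']
  [Algebra B0 B01] [Algebra B1 B01] [IsScalarTower W B0 B01] [IsScalarTower W B1 B01]
  [Algebra B0' B01'] [Algebra B1' B01'] [IsScalarTower W B0' B01'] [IsScalarTower W B1' B01']
  (M : ChartMor W B0 B1 B01 B0' B1' B01')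
  {g g' : ℕ} (D : CechData W B0 B1 B01 g) (D' : CechData W B0' B1' B01' g')

/-- the `W`-linear map `B01' → B01` of a `ChartMor` (the `α`, `β` of `Toric50.Master`). -/
def linOf : B01' →ₗ[W] B01 := M.α01.toLinearMap

@[simp] theorem linOf_apply (x : B01') : linOf M x = M.α01 x := rfl

theorem linOf_rho0_eq (hρ0 : ∀ x, D.ρ0 x = algebraMap B0 B01 x)
    (hρ0' : ∀ x, D'.ρ0 x = algebraMap B0' B01' x) (a : B0') :
    linOf M (D'.ρ0 a) = D.ρ0 (M.α0 a) := by
  rw [linOf_apply, hρ0', M.comm0, hρ0]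

theorem linOf_rho1_eq (hρ1 : ∀ x, D.ρ1 x = algebraMap B1 B01 x)
    (hρ1' : ∀ x, D'.ρ1 x = algebraMap B1' B01' x) (a : B1') :
    linOf M (D'.ρ1 a) = D.ρ1 (M.α1 a) := by
  rw [linOf_apply, hρ1', M.comm1, hρ1]

/-- the hypothesis `hα0` / `hβ0` of `towerInput_of_fibre`. -/
theorem linOf_rho0 (hρ0 : ∀ x, D.ρ0 x = algebraMap B0 B01 x)
    (hρ0' : ∀ x, D'.ρ0 x = algebraMap B0' B01' x) :
    ∀ a : B0', ∃ a0 : B0, linOf M (D'.ρ0 a) = D.ρ0 a0 :=
  fun a => ⟨M.α0 a, linOf_rho0_eq M D D' hρ0 hρ0' a⟩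

/-- the hypothesis `hα1` / `hβ1` of `towerInput_of_fibre`. -/
theorem linOf_rho1 (hρ1 : ∀ x, D.ρ1 x = algebraMap B1 B01 x)
    (hρ1' : ∀ x, D'.ρ1 x = algebraMap B1' B01' x) :
    ∀ a : B1', ∃ a1 : B1, linOf M (D'.ρ1 a) = D.ρ1 a1 :=
  fun a => ⟨M.α1 a, linOf_rho1_eq M D D' hρ1 hρ1' a⟩

end Fermat.Agent.T1B.NormModel49
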