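/-
Programme T1B (row 38 via S44), cell TORIC50, brick NORM-MODEL part B, HUB ADAPTER (helper49), file 2:
**`Mα`, `Mβ` and the Čech norm systems `Sα`, `Sβ` in helper9's concrete-hub vocabulary** (`T1B/Hub9`, report 1135).

For `H : Hub9.HubParams p M' K` (`p` odd, `4 ∣ M'`, `p ∤ M'`, `ζ_{M'} ∈ K`, `K` inertial), `W = Wb p K`:

* `normDataS H : NormData (AK (padicPlace p) K) (alphaST p M' K) (betaST p M' K) (tT H)`;
* `MalphaS H`, `MbetaS H : Toric11.ChartMor (Wb p K) ↥(B0S H) ↥(B1S H) ↥(B0S H ⊔ B1S H) ↥(B0T H) ↥(B1T H)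
    ↥(B0T H ⊔ B1T H)` (overlap algebra structures `Coh60.algebra0/1`, as everywhere on the hub): the finite
  projective morphisms of two-chart data given by the degeneracy maps `alphaST`, `betaST`;
  `MalphaS_eq H : MalphaS H = NormModel99.Malpha (normDataS H)` (so that `K2Model94.k2_chartMorOfSub` applies);
  coercion lemmas `MalphaS_α0_coe` … `MbetaS_t1_coe`, `MalphaS_α0_t0_coe : ↑(α0 t0) = tS H`,
  `MbetaS_α0_t0_coe : ↑(α0 t0) = yS H`;
* `SalphaS H`, `SbetaS H : Toric11.NormSys (DS H) (DT H)` `:= (M_S H).normSys (DS H) (DT H) (DS_ρ0 H) (DS_ρ1 H)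
    (DT_ρ0 H) (DT_ρ1 H)`: the `Sα`, `Sβ` of `Toric50.Master` / `Toric98.towerInput_of_fibre` /
  `Norm84.Iota.beta_iota_tower(_of_rad)` / CMP.
-/
import Mathlib
import Fermat.Agent.T1B.Hub9.Data
import Fermat.Agent.T1B.NormModel49.AtPadic
import Fermat.Agent.T1B.NormModel49.LinHyps

set_option autoImplicit false
set_option synthInstance.maxHeartbeats 400000
set_option maxHeartbeats 1000000
set_option linter.unusedSectionVars false
set_option linter.style.haveILetI false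

noncomputable section

open HahnSeries ModularCurve IntermediateField

namespace Fermat.Agent.T1B.NormModel49

open Fermat.Agent.RED.Interface4 Fermat.Agent.RED.BASE.EtaQuot12 Fermat.Agent.X0
  Fermat.Agent.ES.N34.ModelDefs9 Fermat.Agent.T1.Coh60 Fermat.Agent.T1.CechFormal70
  Fermat.Agent.T1B.Toric11 Fermat.Agent.T1B.Norm84 Fermat.Agent.T1B.NormModel99
  Fermat.Agent.T1B.Local66.LocalBase Fermat.Agent.T1B.Hub9
open scoped Fermat.Agent.T1.Assembly41.FastInst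

attribute [local instance] algebra0 algebra1 isScalarTower0 isScalarTower1

variable {p M' : ℕ} [Fact p.Prime] [NeZero p] [NeZero M'] {K : IntermediateField ℚ Qbar}
  [FiniteDimensional ℚ K]

/-- **NORM-MODEL part B on the hub.** -/
theorem normDataS (H : HubParams p M' K) :
    NormData (AK (padicPlace p) K) (alphaST p M' K) (betaST p M' K) (tT H) :=
  normDataP H.hp2 H.hpM H.h4 H.hζ H.htq

/-- **`Mα` on the hub**: `alphaST : (B0T, B1T, B0T ⊔ B1T) → (B0S, B1S, B0S ⊔ B1S)`. -/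
def MalphaS (H : HubParams p M' K) :
    ChartMor (Wb p K) ↥(B0S H) ↥(B1S H) ↥(B0S H ⊔ B1S H) ↥(B0T H) ↥(B1T H) ↥(B0T H ⊔ B1T H) :=
  MalphaP H.hp2 H.hpM H.h4 H.hζ H.htq

/-- **`Mβ` on the hub**: `betaST : (B0T, B1T, B0T ⊔ B1T) → (B0S, B1S, B0S ⊔ B1S)`. -/
def MbetaS (H : HubParams p M' K) :
    ChartMor (Wb p K) ↥(B0S H) ↥(B1S H) ↥(B0S H ⊔ B1S H) ↥(B0T H) ↥(B1T H) ↥(B0T H ⊔ B1T H) :=
  MbetaP H.hp2 H.hpM H.h4 H.hζ H.htq

theorem MalphaS_eq [IsDiscreteValuationRing ↥(AK (padicPlace p) K)] (H : HubParams p M' K) :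
    MalphaS H = Malpha (normDataS H) := rfl

theorem MbetaS_eq [IsDiscreteValuationRing ↥(AK (padicPlace p) K)] (H : HubParams p M' K) :
    MbetaS H = Mbeta (normDataS H) := rfl

section Coe

variable (H : HubParams p M' K)

@[simp] theorem MalphaS_α0_coe (x : ↥(B0T H)) :
    (((MalphaS H).α0 x : ↥(B0S H)) : FS p M' K) = alphaST p M' K (x : FT M' K) := rfl

@[simp] theorem MalphaS_α1_coe (x : ↥(B1T H)) :
    (((MalphaS H).α1 x : ↥(B1S H)) : FS p M' K) = alphaST p M' K (x : FT M' K) := rfl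

@[simp] theorem MalphaS_α01_coe (x : ↥(B0T H ⊔ B1T H)) :
    (((MalphaS H).α01 x : ↥(B0S H ⊔ B1S H)) : FS p M' K) = alphaST p M' K (x : FT M' K) := rfl

@[simp] theorem MalphaS_t0_coe : (((MalphaS H).t0 : ↥(B0T H)) : FT M' K) = tT H := rfl

@[simp] theorem MalphaS_t1_coe : (((MalphaS H).t1 : ↥(B1T H)) : FT M' K) = (tT H)⁻¹ := rfl

/-- `Mα` maps the coordinate of the target to the coordinate `tS` of the source. -/
theorem MalphaS_α0_t0_coe : (((MalphaS H).α0 (MalphaS H).t0 : ↥(B0S H)) : FS p M' K) = tS H := rfl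

@[simp] theorem MbetaS_α0_coe (x : ↥(B0T H)) :
    (((MbetaS H).α0 x : ↥(B0S H)) : FS p M' K) = betaST p M' K (x : FT M' K) := rfl

@[simp] theorem MbetaS_α1_coe (x : ↥(B1T H)) :
    (((MbetaS H).α1 x : ↥(B1S H)) : FS p M' K) = betaST p M' K (x : FT M' K) := rfl

@[simp] theorem MbetaS_α01_coe (x : ↥(B0T H ⊔ B1T H)) :
    (((MbetaS H).α01 x : ↥(B0S H ⊔ B1S H)) : FS p M' K) = betaST p M' K (x : FT M' K) := rfl

@[simp] theorem MbetaS_t0_coe : (((MbetaS H).t0 : ↥(B0T H)) : FT M' K) = tT H := rfl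

@[simp] theorem MbetaS_t1_coe : (((MbetaS H).t1 : ↥(B1T H)) : FT M' K) = (tT H)⁻¹ := rfl

/-- `Mβ` maps the coordinate of the target to `yS = t(𝐪^p)`. -/
theorem MbetaS_α0_t0_coe : (((MbetaS H).α0 (MbetaS H).t0 : ↥(B0S H)) : FS p M' K) = yS H := rfl

/-- the coordinate of `Mα`, `Mβ` is the coordinate of the target chart system `c0T H`. -/
theorem MalphaS_t0_eq : (MalphaS H).t0 = (c0T H).t := Subtype.ext rfl

theorem MalphaS_t1_eq : (MalphaS H).t1 = (c0T H).s := Subtype.ext rfl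

theorem MbetaS_t0_eq : (MbetaS H).t0 = (c0T H).t := Subtype.ext rfl

theorem MbetaS_t1_eq : (MbetaS H).t1 = (c0T H).s := Subtype.ext rfl

/-- `Mα` maps the coordinates of the target chart system to those of the source chart system. -/
theorem MalphaS_α0_t : (MalphaS H).α0 (c0T H).t = (c0S H).t := Subtype.ext rfl

theorem MalphaS_α1_s : (MalphaS H).α1 (c0T H).s = (c0S H).s :=
  Subtype.ext (map_inv₀ (alphaST p M' K) (tT H))

end Coe

/-! ### The two Čech norm systems on the hub -/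

/-- **`Sα`**: the Čech norm system of `Mα` between the Čech data of the hub. -/
def SalphaS (H : HubParams p M' K) : NormSys (DS H) (DT H) :=
  (MalphaS H).normSys (DS H) (DT H) (DS_ρ0 H) (DS_ρ1 H) (DT_ρ0 H) (DT_ρ1 H)

/-- **`Sβ`**: the Čech norm system of `Mβ` between the Čech data of the hub. -/
def SbetaS (H : HubParams p M' K) : NormSys (DS H) (DT H) :=
  (MbetaS H).normSys (DS H) (DT H) (DS_ρ0 H) (DS_ρ1 H) (DT_ρ0 H) (DT_ρ1 H)

theorem SalphaS_eq (H : HubParams p M' K) :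
    SalphaS H = (MalphaS H).normSys (DS H) (DT H) (DS_ρ0 H) (DS_ρ1 H) (DT_ρ0 H) (DT_ρ1 H) := rfl

theorem SbetaS_eq (H : HubParams p M' K) :
    SbetaS H = (MbetaS H).normSys (DS H) (DT H) (DS_ρ0 H) (DS_ρ1 H) (DT_ρ0 H) (DT_ρ1 H) := rfl

/-! ### The linear maps `α`, `β` of the master assembly (`Toric98.ToricBase.towerInput_of_fibre`) -/

/-- the `W`-linear map `α : B01T → B01S` of the master assembly. -/
def alphaLinS (H : HubParams p M' K) : ↥(B0T H ⊔ B1T H) →ₗ[Wb p K] ↥(B0S H ⊔ B1S H) :=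
  linOf (MalphaS H)

/-- the `W`-linear map `β : B01T → B01S` of the master assembly. -/
def betaLinS (H : HubParams p M' K) : ↥(B0T H ⊔ B1T H) →ₗ[Wb p K] ↥(B0S H ⊔ B1S H) :=
  linOf (MbetaS H)

@[simp] theorem alphaLinS_coe (H : HubParams p M' K) (x : ↥(B0T H ⊔ B1T H)) :
    ((alphaLinS H x : ↥(B0S H ⊔ B1S H)) : FS p M' K) = alphaST p M' K (x : FT M' K) := rfl

@[simp] theorem betaLinS_coe (H : HubParams p M' K) (x : ↥(B0T H ⊔ B1T H)) :
    ((betaLinS H x : ↥(B0S H ⊔ B1S H)) : FS p M' K) = betaST p M' K (x : FT M' K) := rfl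

theorem alphaLinS_apply (H : HubParams p M' K) (x : ↥(B0T H ⊔ B1T H)) :
    alphaLinS H x = (MalphaS H).α01 x := rfl

theorem betaLinS_apply (H : HubParams p M' K) (x : ↥(B0T H ⊔ B1T H)) :
    betaLinS H x = (MbetaS H).α01 x := rfl

/-- `hα0` of `towerInput_of_fibre`. -/
theorem alphaLinS_rho0 (H : HubParams p M' K) :
    ∀ a : ↥(B0T H), ∃ a0 : ↥(B0S H), alphaLinS H ((DT H).ρ0 a) = (DS H).ρ0 a0 :=
  linOf_rho0 (MalphaS H) (DS H) (DT H) (DS_ρ0 H) (DT_ρ0 H)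

/-- `hα1` of `towerInput_of_fibre`. -/
theorem alphaLinS_rho1 (H : HubParams p M' K) :
    ∀ a : ↥(B1T H), ∃ a1 : ↥(B1S H), alphaLinS H ((DT H).ρ1 a) = (DS H).ρ1 a1 :=
  linOf_rho1 (MalphaS H) (DS H) (DT H) (DS_ρ1 H) (DT_ρ1 H)

/-- `hβ0` of `towerInput_of_fibre`. -/
theorem betaLinS_rho0 (H : HubParams p M' K) :
    ∀ a : ↥(B0T H), ∃ a0 : ↥(B0S H), betaLinS H ((DT H).ρ0 a) = (DS H).ρ0 a0 :=
  linOf_rho0 (MbetaS H) (DS H) (DT H) (DS_ρ0 H) (DT_ρ0 H)

/-- `hβ1` of `towerInput_of_fibre`. -/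
theorem betaLinS_rho1 (H : HubParams p M' K) :
    ∀ a : ↥(B1T H), ∃ a1 : ↥(B1S H), betaLinS H ((DT H).ρ1 a) = (DS H).ρ1 a1 :=
  linOf_rho1 (MbetaS H) (DS H) (DT H) (DS_ρ1 H) (DT_ρ1 H)

end Fermat.Agent.T1B.NormModel49
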